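import Mathlib

/-!
# The transfer lemma

The transfer lemma (`sum_smul_mem`).
A group `G` acts on an abelian group through `act`, commuting with a
commutative ring `B` (through `h`), and satisfies `g² - a(g) g + c(g) = 0`.  A two-dimensional
representation `R` over `T` spanning the endomorphisms has trace `π (a g)` modulo `I`.  If the
kernel of `h` maps into `I`, every `B`-linear relation between the `act g` holds for `R` mod `I`.
-/

namespace Fermat.Agent.HeckeDatum

variable {G : Type*} [Group G] {B : Type*} [CommRing B] {E : Type*} [Ring E]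
  {T : Type*} [CommRing T] {V : Type*} [AddCommGroup V] [Module T V]

/-- The input data of the transfer lemma. -/
structure TransferData (act : G →* E) (h : B →+* E) (π : B →+* T) (R : G →* Module.End T V)
    (I : Ideal T) (a c : G → B) : Prop where
  comm : ∀ b g, Commute (h b) (act g)
  quad : ∀ g, act g * act g - h (a g) * act g + h (c g) = 0
  cmul : ∀ g g', h (c (g * g')) = h (c g) * h (c g')
  tr : ∀ g, π (a g) - LinearMap.trace T V (R g) ∈ I
  ker : ∀ b, h b = 0 → π b ∈ I

namespace TransferData

variable {act : G →* E} {h : B →+* E} {π : B →+* T} {R : G →* Module.End T V}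
  {I : Ideal T} {a c : G → B}

omit [Group G] in
theorem trace_toLinAlgEquiv {n : Type*} [Fintype n] [DecidableEq n] (b : Module.Basis n T V)
    (M : Matrix n n T) : LinearMap.trace T V (Matrix.toLinAlgEquiv b M) = M.trace := by
  rw [LinearMap.trace_eq_matrix_trace T b]
  exact congrArg Matrix.trace (LinearMap.toMatrix_toLin b b M)

/-- `a(g) - g`, the conjugate of `act g`. -/
def conj (act : G →* E) (h : B →+* E) (a : G → B) (g : G) : E := h (a g) - act g

theorem conj_eq (d : TransferData act h π R I a c) (g : G) :
    conj act h a g = h (c g) * act g⁻¹ := by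
  have e : conj act h a g * act g = h (c g) := by
    rw [conj, sub_mul, ← sub_eq_zero, ← neg_eq_zero, ← d.quad g]
    abel
  calc conj act h a g = conj act h a g * (act g * act g⁻¹) := by
        rw [← map_mul, mul_inv_cancel, map_one, mul_one]
    _ = h (c g) * act g⁻¹ := by rw [← mul_assoc, e]

theorem conj_mul (d : TransferData act h π R I a c) (g g' : G) :
    conj act h a (g * g') = conj act h a g' * conj act h a g := by
  rw [d.conj_eq, d.conj_eq g, d.conj_eq g', d.cmul, mul_inv_rev, map_mul]
  have hswap : Commute (h (c g)) (h (c g') * act g'⁻¹) :=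
    ((Commute.all (c g) (c g')).map h).mul_right (d.comm (c g) g'⁻¹)
  rw [← mul_assoc (h (c g') * act g'⁻¹), ← hswap.eq]
  simp only [mul_assoc]

theorem comm_conj (d : TransferData act h π R I a c) (b : B) (g : G) :
    Commute (h b) (conj act h a g) :=
  ((Commute.all b (a g)).map h).sub_right (d.comm b g)

variable {ι : Type*} {s : Finset ι} {b : ι → B} {σ : ι → G}

/-- The `B`-trace of `(∑ bᵢ σᵢ) k`. -/
def coef (a : G → B) (s : Finset ι) (b : ι → B) (σ : ι → G) (k : G) : B :=
  ∑ i ∈ s, b i * a (σ i * k)

theorem h_coef (d : TransferData act h π R I a c) (hx : ∑ i ∈ s, h (b i) * act (σ i) = 0)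
    (k : G) :
    h (coef a s b σ k) = conj act h a k * ∑ i ∈ s, h (b i) * conj act h a (σ i) := by
  have h1 : ∑ i ∈ s, h (b i) * act (σ i * k) = 0 := by
    simp only [map_mul, ← mul_assoc, ← Finset.sum_mul, hx, zero_mul]
  have h2 : h (coef a s b σ k) = ∑ i ∈ s, h (b i) * conj act h a (σ i * k) := by
    simp only [coef, conj, map_sum, map_mul, mul_sub, Finset.sum_sub_distrib] at h1 ⊢
    rw [h1, sub_zero]
  rw [h2, Finset.mul_sum]
  refine Finset.sum_congr rfl fun i _ => ?_
  rw [d.conj_mul, ← mul_assoc, (d.comm_conj (b i) k).eq, mul_assoc]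

theorem h_coef_eq (d : TransferData act h π R I a c) (hx : ∑ i ∈ s, h (b i) * act (σ i) = 0)
    (k : G) : h (coef a s b σ k) = h (coef a s b σ 1) * conj act h a k := by
  have h1 : conj act h a 1 * ∑ i ∈ s, h (b i) * conj act h a (σ i) =
      ∑ i ∈ s, h (b i) * conj act h a (σ i) := by
    rw [Finset.mul_sum]
    refine Finset.sum_congr rfl fun i _ => ?_
    rw [← mul_assoc, ← (d.comm_conj (b i) 1).eq, mul_assoc, ← d.conj_mul, mul_one]
  rw [d.h_coef hx k, (d.comm_conj _ k).eq, d.h_coef hx 1, h1]

/-- `coef(1)` kills commutators, so `coef(1) a(g h' k) = coef(1) a(h' g k)`. -/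
theorem h_coef_mul_comm (d : TransferData act h π R I a c)
    (hx : ∑ i ∈ s, h (b i) * act (σ i) = 0) (g g' k : G) :
    h (coef a s b σ 1 * a (g * g' * k)) = h (coef a s b σ 1 * a (g' * g * k)) := by
  set A := h (coef a s b σ 1) with hA
  have hcom : A * (act g * act g') = A * (act g' * act g) := by
    have e1 : A * act g = h (coef a s b σ 1 * a g - coef a s b σ g) := by
      rw [map_sub, map_mul, ← hA, d.h_coef_eq hx g, ← hA, conj, mul_sub, sub_sub_cancel]
    calc A * (act g * act g') = A * act g * act g' := (mul_assoc _ _ _).symm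
      _ = act g' * (A * act g) := by rw [e1, (d.comm _ g').eq]
      _ = A * (act g' * act g) := by rw [← mul_assoc, hA, ← (d.comm _ g').eq, mul_assoc]
  have hcom' : A * (conj act h a g' * conj act h a g) =
      A * (conj act h a g * conj act h a g') := by
    simp only [conj, sub_mul, mul_sub]
    rw [show A * (h (a g') * h (a g)) = A * (h (a g) * h (a g')) by
      rw [((Commute.all (a g') (a g)).map h).eq]]
    rw [(d.comm (a g') g).eq, (d.comm (a g) g').eq, hcom]
    abel
  have hk : A * (act g * act g' * act k) = A * (act g' * act g * act k) := by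
    rw [← mul_assoc A (act g * act g'), ← mul_assoc A (act g' * act g), hcom]
  have hk' : A * conj act h a (g * g' * k) = A * conj act h a (g' * g * k) := by
    rw [d.conj_mul, d.conj_mul g g', d.conj_mul (g' * g), d.conj_mul g' g, ← mul_assoc,
      ← mul_assoc A (conj act h a k), hA, (d.comm_conj _ k).eq, ← hA, mul_assoc, hcom',
      mul_assoc]
  rw [map_mul, map_mul, ← hA,
    show h (a (g * g' * k)) = conj act h a (g * g' * k) + act (g * g' * k) by simp [conj],
    show h (a (g' * g * k)) = conj act h a (g' * g * k) + act (g' * g * k) by simp [conj],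
    mul_add, mul_add, hk', map_mul, map_mul, map_mul, map_mul, hk]

variable (d : TransferData act h π R I a c)
  (hspan : Submodule.span T (Set.range fun g => R g) = ⊤)
include d

theorem π_coef_sub_trace (k : G) :
    π (coef a s b σ k) - LinearMap.trace T V ((∑ i ∈ s, π (b i) • R (σ i)) * R k) ∈ I := by
  rw [Finset.sum_mul, map_sum, coef, map_sum, ← Finset.sum_sub_distrib]
  refine Submodule.sum_mem _ fun i _ => ?_
  rw [smul_mul_assoc, map_smul, ← map_mul R, smul_eq_mul, map_mul, ← mul_sub]
  exact I.mul_mem_left _ (d.tr _)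

include hspan

theorem π_coef_one_mem [Module.Free T V] [Module.Finite T V]
    (hV : Module.finrank T V = 2) [Nontrivial T] (hx : ∑ i ∈ s, h (b i) * act (σ i) = 0) :
    π (coef a s b σ 1) ∈ I := by
  set t := π (coef a s b σ 1)
  have base : ∀ g g' k, t * LinearMap.trace T V ((R g * R g' - R g' * R g) * R k) ∈ I := by
    intro g g' k
    have h1 := d.ker _ (show h (coef a s b σ 1 * a (g * g' * k) -
      coef a s b σ 1 * a (g' * g * k)) = 0 by rw [map_sub, d.h_coef_mul_comm hx, sub_self])
    rw [map_sub, map_mul, map_mul] at h1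
    rw [sub_mul, map_sub, ← map_mul, ← map_mul, ← map_mul, ← map_mul]
    have h2 := I.mul_mem_left t (d.tr (g * g' * k))
    have h3 := I.mul_mem_left t (d.tr (g' * g * k))
    convert! I.sub_mem h1 (I.sub_mem h2 h3) using 1
    ring
  let b2 := Module.finBasisOfFinrankEq T V hV
  have all : ∀ X Y Z : Module.End T V, t * LinearMap.trace T V ((X * Y - Y * X) * Z) ∈ I := by
    intro X Y Z
    have hX : X ∈ Submodule.span T (Set.range fun g => R g) := hspan ▸ Submodule.mem_top
    induction hX using Submodule.span_induction generalizing Y Z with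
    | mem X hX =>
      obtain ⟨g, rfl⟩ := hX
      have hY : Y ∈ Submodule.span T (Set.range fun g => R g) := hspan ▸ Submodule.mem_top
      induction hY using Submodule.span_induction generalizing Z with
      | mem Y hY =>
        obtain ⟨g', rfl⟩ := hY
        have hZ : Z ∈ Submodule.span T (Set.range fun g => R g) := hspan ▸ Submodule.mem_top
        induction hZ using Submodule.span_induction with
        | mem Z hZ =>
          obtain ⟨k, rfl⟩ := hZ
          exact base g g' k
        | zero => simp
        | add u v _ _ hu hv => rw [mul_add, map_add, mul_add]; exact I.add_mem hu hv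
        | smul r u _ hu =>
          rw [mul_smul_comm, map_smul, smul_eq_mul, mul_left_comm]; exact I.mul_mem_left r hu
      | zero => simp
      | add u v _ _ hu hv =>
        rw [mul_add, add_mul, add_sub_add_comm, add_mul, map_add, mul_add]
        exact I.add_mem (hu Z) (hv Z)
      | smul r u _ hu =>
        rw [mul_smul_comm, smul_mul_assoc, ← smul_sub, smul_mul_assoc, map_smul, smul_eq_mul,
          mul_left_comm]
        exact I.mul_mem_left r (hu Z)
    | zero => simp
    | add u v _ _ hu hv =>
      rw [mul_add, add_mul, add_sub_add_comm, add_mul, map_add, mul_add]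
      exact I.add_mem (hu Y Z) (hv Y Z)
    | smul r u _ hu =>
      rw [mul_smul_comm, smul_mul_assoc, ← smul_sub, smul_mul_assoc, map_smul, smul_eq_mul,
        mul_left_comm]
      exact I.mul_mem_left r (hu Y Z)
  have key := all (Matrix.toLinAlgEquiv b2 (Matrix.single 0 0 1))
    (Matrix.toLinAlgEquiv b2 (Matrix.single 0 1 1)) (Matrix.toLinAlgEquiv b2 (Matrix.single 1 0 1))
  rw [← map_mul, ← map_mul, ← map_sub, ← map_mul, trace_toLinAlgEquiv] at key
  simpa [Matrix.trace, Matrix.mul_apply, Matrix.single, Fin.sum_univ_two] using key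

/-- **Transfer**: a relation killed by `act` holds for `R` modulo `I`. -/
theorem sum_smul_mem [Module.Free T V] [Module.Finite T V] (hV : Module.finrank T V = 2)
    [Nontrivial T] (hx : ∑ i ∈ s, h (b i) * act (σ i) = 0) (v : V) :
    (∑ i ∈ s, π (b i) • R (σ i)) v ∈ I • (⊤ : Submodule T V) := by
  set X := ∑ i ∈ s, π (b i) • R (σ i) with hX
  have h1 : ∀ k, LinearMap.trace T V (X * R k) ∈ I := by
    intro k
    have hσk : ∑ i ∈ s, h (b i) * act (σ i * k) = 0 := by
      simp only [map_mul, ← mul_assoc, ← Finset.sum_mul, hx, zero_mul]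
    have e3 : π (coef a s b (fun i => σ i * k) 1) ∈ I :=
      TransferData.π_coef_one_mem d hspan hV hσk
    have e4 := I.sub_mem e3 (d.π_coef_sub_trace (s := s) (b := b) (σ := fun i => σ i * k) 1)
    rw [sub_sub_cancel] at e4
    simpa [hX, Finset.sum_mul, smul_mul_assoc, map_mul] using e4
  let b2 := Module.finBasisOfFinrankEq T V hV
  have h2 : ∀ Z, LinearMap.trace T V (X * Z) ∈ I := by
    intro Z
    have hZ : Z ∈ Submodule.span T (Set.range fun g => R g) := hspan ▸ Submodule.mem_top
    induction hZ using Submodule.span_induction with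
    | mem Z hZ => obtain ⟨k, rfl⟩ := hZ; exact h1 k
    | zero => simp
    | add u v _ _ hu hv => rw [mul_add, map_add]; exact I.add_mem hu hv
    | smul r u _ hu => rw [mul_smul_comm, map_smul, smul_eq_mul]; exact I.mul_mem_left r hu
  have h3 : ∀ i j, LinearMap.toMatrix b2 b2 X i j ∈ I := by
    intro i j
    have := h2 (Matrix.toLinAlgEquiv b2 (Matrix.single j i 1))
    rw [show X = Matrix.toLinAlgEquiv b2 (LinearMap.toMatrix b2 b2 X) from
      (Matrix.toLin_toMatrix b2 b2 X).symm, ← map_mul, trace_toLinAlgEquiv,
      Matrix.trace_mul_single] at this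
    simpa using this
  rw [← b2.sum_repr (X v)]
  refine Submodule.sum_mem _ fun i _ => Submodule.smul_mem_smul ?_ Submodule.mem_top
  rw [← b2.sum_repr v, map_sum, map_sum, Finset.sum_apply']
  refine Submodule.sum_mem _ fun j _ => ?_
  rw [map_smul, map_smul, Finsupp.smul_apply, smul_eq_mul, ← LinearMap.toMatrix_apply]
  exact I.mul_mem_left _ (h3 i j)

end TransferData

end Fermat.Agent.HeckeDatum
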