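import Mathlib
import Fermat.Agent.HeckeDatum.Transfer
import Fermat.Agent.Density.BrauerNesbitt
import Fermat.Agent.Density.Places
import Fermat.Agent.Gal.Frobenius
import Fermat.Prelude.Def_CuspForm_HeckeGaloisRepDatum

/-!
# The Eichler–Shimura relation everywhere

A Hecke–Galois torsion module satisfying the Eichler–Shimura relation at Frobenius elements
satisfies it everywhere (Frobenius density), so the transfer lemma applies to the representation
of a Hecke–Galois datum.
-/

noncomputable section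

namespace Fermat.Agent.HeckeDatum

local notation "ℚbar" => AlgebraicClosure ℚ
local notation "GQ" => AlgebraicClosure ℚ ≃ₐ[ℚ] AlgebraicClosure ℚ

/-- `σ` raises the `n`-th roots of unity to the power `c`. -/
def CycAt (n : ℕ) (σ : GQ) (c : ℕ) : Prop := ∀ ζ : ℚbar, ζ ^ n = 1 → σ ζ = ζ ^ c

theorem CycAt.mul {n : ℕ} {σ τ : GQ} {c d : ℕ} (h : CycAt n σ c) (h' : CycAt n τ d) :
    CycAt n (σ * τ) (c * d) := by
  intro ζ hζ
  rw [AlgEquiv.mul_apply, h' ζ hζ, map_pow, h ζ hζ, ← pow_mul]

theorem CycAt.conj {n : ℕ} {σ : GQ} {c : ℕ} (h : CycAt n σ c) (g : GQ) :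
    CycAt n (g * σ * g⁻¹) c := by
  intro ζ hζ
  have h1 : (g⁻¹ ζ) ^ n = 1 := by rw [← map_pow, hζ, map_one]
  rw [AlgEquiv.mul_apply, AlgEquiv.mul_apply, h _ h1, map_pow, ← AlgEquiv.mul_apply,
    mul_inv_cancel, AlgEquiv.one_apply]

theorem CycAt.pow {n : ℕ} {σ : GQ} {c : ℕ} (h : CycAt n σ c) : ∀ j, CycAt n (σ ^ j) (c ^ j)
  | 0 => fun ζ _ => by simp
  | j + 1 => by
    rw [pow_succ, pow_succ]
    exact (CycAt.pow h j).mul h

theorem CycAt.modEq {n : ℕ} [NeZero n] {σ : GQ} {c d : ℕ} (h : CycAt n σ c) (h' : CycAt n σ d) :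
    c ≡ d [MOD n] := by
  obtain ⟨ζ, hζ⟩ := HasEnoughRootsOfUnity.exists_primitiveRoot ℚbar n
  have hone := hζ.pow_eq_one
  have e : ζ ^ c = ζ ^ d := (h ζ hone).symm.trans (h' ζ hone)
  have hu := hζ.isUnit_unit (NeZero.ne n)
  rw [hu.eq_orderOf, ← pow_eq_pow_iff_modEq]
  ext
  simpa using e

/-- A finite torsion module with commuting actions of the Hecke algebra away from `S` and of
`Gal(ℚ̄/ℚ)`, satisfying the Eichler–Shimura relation at Frobenius elements. -/
structure HeckeTorsion (N : ℕ) [NeZero N] (S : Set ℕ) (p : ℕ) : Type 1 where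
  /-- underlying abelian group -/
  M : Type
  [addCommGroup : AddCommGroup M]
  /-- exponent -/
  m : ℕ
  torsion : ∀ x : M, p ^ m • x = 0
  /-- Galois action -/
  act : GQ →* Module.End ℤ M
  finiteLevel : GaloisFactorsThroughFiniteLevel act
  /-- Hecke action -/
  hecke : CuspForm.heckeAlgebra N 2 S →+* Module.End ℤ M
  comm : ∀ t σ, Commute (hecke t) (act σ)
  frobQuad : ∀ (ℓ : ℕ) (hℓ : ℓ.Prime) (hℓN : ¬ ℓ ∣ N) (hℓS : ℓ ∉ S), ℓ ≠ p →
    ∀ A : ValuationSubring ℚbar, A.LiesOverPrime ℓ → ∀ σ : GQ, A.IsFrobeniusAt σ ℓ →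
      act σ * act σ - hecke (CuspForm.heckeAlgebra.T hℓ hℓN hℓS) * act σ
        + (ℓ : Module.End ℤ M) = 0

attribute [instance] HeckeTorsion.addCommGroup

theorem HeckeTorsion.natCast_eq_of_modEq {N : ℕ} [NeZero N] {S : Set ℕ} {p : ℕ}
    (X : HeckeTorsion N S p) {c d : ℕ} (h : c ≡ d [MOD p ^ X.m]) :
    (c : Module.End ℤ X.M) = d := by
  have key : ∀ e : ℕ, p ^ X.m ∣ e → ∀ x : X.M, e • x = 0 := by
    rintro e ⟨q, rfl⟩ x
    rw [mul_comm, mul_smul, X.torsion, smul_zero]
  wlog hle : c ≤ d generalizing c d with H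
  · exact (H h.symm (le_of_not_ge hle)).symm
  obtain ⟨e, rfl⟩ := Nat.exists_eq_add_of_le hle
  have he : p ^ X.m ∣ e := by
    have := (Nat.modEq_iff_dvd' hle).mp h
    rwa [Nat.add_sub_cancel_left] at this
  ext x
  simp [key e he x]

/-- An endomorphism with image in `I • V` has trace in `I`. -/
theorem trace_mem_of_forall_apply_mem {T : Type*} [CommRing T] {V : Type*} [AddCommGroup V]
    [Module T V] [Module.Free T V] [Module.Finite T V] {I : Ideal T} {X : Module.End T V}
    (h : ∀ v, X v ∈ I • (⊤ : Submodule T V)) : LinearMap.trace T V X ∈ I := by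
  classical
  let b := Module.Free.chooseBasis T V
  rw [LinearMap.trace_eq_matrix_trace T b]
  refine Submodule.sum_mem _ fun i _ => ?_
  rw [Matrix.diag_apply, LinearMap.toMatrix_apply]
  have key : ∀ x ∈ I • (⊤ : Submodule T V), b.repr x i ∈ I := by
    intro x hx
    refine Submodule.smul_induction_on hx (fun r hr v _ => ?_) (fun u v hu hv => ?_)
    · rw [map_smul, Finsupp.smul_apply, smul_eq_mul]; exact I.mul_mem_right _ hr
    · rw [map_add, Finsupp.add_apply]; exact I.add_mem hu hv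
  exact key _ (h _)

/-- A matrix-free Cayley–Hamilton for quadratic charpolys. -/
theorem quad_of_charpoly {T : Type*} [CommRing T] [Nontrivial T] {V : Type*} [AddCommGroup V]
    [Module T V] [Module.Free T V] [Module.Finite T V] (hV : Module.finrank T V = 2)
    {X : Module.End T V} {t c : T}
    (h : LinearMap.charpoly X = Polynomial.X ^ 2 - Polynomial.C t * Polynomial.X + Polynomial.C c) :
    X * X - t • X + c • 1 = 0 ∧ LinearMap.trace T V X = t := by
  constructor
  · have := LinearMap.aeval_self_charpoly X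
    rw [h] at this
    simpa [sq, Algebra.algebraMap_eq_smul_one, smul_mul_assoc] using this
  · let b := Module.finBasisOfFinrankEq T V hV
    rw [LinearMap.trace_eq_matrix_trace T b, Matrix.trace_eq_neg_charpoly_coeff,
      LinearMap.charpoly_toMatrix, h]
    simp [Polynomial.coeff_X_pow, Polynomial.coeff_C]

/-- `aⱼ` with `τ^{2j} - aⱼ τ^j + c^j = 0`. -/
def powTrace {B : Type*} [CommRing B] (a c : B) : ℕ → B
  | 0 => 2
  | 1 => a
  | j + 2 => a * powTrace a c (j + 1) - c * powTrace a c j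

theorem powTrace_quad {B E : Type*} [CommRing B] [Ring E] (h : B →+* E) {x : E} {a c : B}
    (hcomm : ∀ b, Commute (h b) x) (hq : x * x - h a * x + h c = 0) :
    ∀ j, x ^ j * x ^ j - h (powTrace a c j) * x ^ j + h (c ^ j) = 0 := by
  -- compute in `B[X]`
  let φ : Polynomial B →+* E := Polynomial.eval₂RingHom' h x hcomm
  have hφX : φ Polynomial.X = x := Polynomial.eval₂_X h x
  have hφC : ∀ b, φ (Polynomial.C b) = h b := fun b => Polynomial.eval₂_C h x
  let A : ℕ → Polynomial B := fun j =>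
    Polynomial.X ^ j * Polynomial.X ^ j - Polynomial.C (powTrace a c j) * Polynomial.X ^ j
      + Polynomial.C (c ^ j)
  suffices ∀ j, φ (A j) = 0 from fun j => by simpa [A, hφX, hφC] using this j
  have hQ : φ (Polynomial.X * Polynomial.X - Polynomial.C a * Polynomial.X + Polynomial.C c)
      = 0 := by
    simpa [hφX, hφC] using hq
  intro j
  induction j using Nat.twoStepInduction with
  | zero =>
    have : A 0 = 0 := by simp [A, powTrace, map_ofNat]; ring
    rw [this, map_zero]
  | one =>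
    have : A 1 = Polynomial.X * Polynomial.X - Polynomial.C a * Polynomial.X + Polynomial.C c := by
      simp [A, powTrace]
    rw [this, hQ]
  | more j h0 h1 =>
    have key : A (j + 2) =
        (Polynomial.X * Polynomial.X - Polynomial.C a * Polynomial.X + Polynomial.C c) *
          (Polynomial.C (powTrace a c (j + 1)) * Polynomial.X ^ (j + 1)) +
        (Polynomial.X * Polynomial.X + Polynomial.C c) * A (j + 1) -
        Polynomial.C c * (Polynomial.X * Polynomial.X) * A j := by
      simp only [A, powTrace, map_sub, map_mul, map_pow]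
      ring
    rw [key, map_sub, map_add, map_mul φ, hQ, map_mul φ (_ + _), h1, map_mul φ (_ * _), h0]
    simp

theorem powTrace_trace {B T : Type*} [CommRing B] [CommRing T] {V : Type*} [AddCommGroup V]
    [Module T V] [Module.Free T V] [Module.Finite T V] [Nontrivial T]
    (hV : Module.finrank T V = 2) (π : B →+* T) {X : Module.End T V} {a c : B}
    (hq : X * X - π a • X + π c • 1 = 0) (ht : LinearMap.trace T V X = π a) :
    ∀ j, LinearMap.trace T V (X ^ j) = π (powTrace a c j)
  | 0 => by rw [pow_zero, LinearMap.trace_one, hV, powTrace, map_ofNat]; norm_num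
  | 1 => by rw [pow_one, powTrace, ht]
  | j + 2 => by
    have h2 : X ^ (j + 2) = π a • X ^ (j + 1) - π c • X ^ j := by
      have : (X * X - π a • X + π c • 1) * X ^ j = 0 := by rw [hq, zero_mul]
      rw [add_mul, sub_mul, smul_mul_assoc, smul_mul_assoc, one_mul, ← pow_succ', ← sq,
        ← pow_add, add_comm 2] at this
      rw [← sub_eq_zero, ← this]; abel
    rw [h2, map_sub, map_smul, map_smul, powTrace_trace hV π hq ht j,
      powTrace_trace hV π hq ht (j + 1), powTrace, map_sub, map_mul, map_mul, smul_eq_mul,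
      smul_eq_mul]

variable {p N : ℕ} [NeZero N] {S : Set ℕ}
  {𝒪 : Type} [CommRing 𝒪] [IsDomain 𝒪] [IsDiscreteValuationRing 𝒪]
  [IsAdicComplete (IsLocalRing.maximalIdeal 𝒪) 𝒪]
  {θ : CuspForm.heckeAlgebra N 2 S →+* IsLocalRing.ResidueField 𝒪}
  {T : Type} [CommRing T] [IsLocalRing T] [IsNoetherianRing T]
  [IsAdicComplete (IsLocalRing.maximalIdeal T) T] [Algebra 𝒪 T] [IsLocalHom (algebraMap 𝒪 T)]
  [Module.Finite 𝒪 T] [Module.Free 𝒪 T]

/-- At every `σ`: an Eichler–Shimura quadratic on the torsion module whose trace coefficient maps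
to the trace of the datum's representation modulo `m^k`. -/
theorem exists_quad (hp : p.Prime) (hS : S.Finite)
    (H : CuspForm.HeckeGaloisRepDatum N S 𝒪 θ T) (X : HeckeTorsion N S p) (k : ℕ) (σ : GQ) :
    ∃ (a : CuspForm.heckeAlgebra N 2 S) (c : ℕ), CycAt (p ^ X.m) σ c ∧
      X.act σ * X.act σ - X.hecke a * X.act σ + (c : Module.End ℤ X.M) = 0 ∧
      H.π a - LinearMap.trace T H.ρ.V (H.ρ.ρ σ) ∈ IsLocalRing.maximalIdeal T ^ k := by
  have : NeZero (p ^ X.m) := ⟨pow_ne_zero _ hp.ne_zero⟩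
  obtain ⟨L₁, hL₁, hact⟩ := X.finiteLevel
  obtain ⟨L₂, hL₂, hρ⟩ := H.ρ.isAdicContinuous k
  obtain ⟨ζ, hζ⟩ := HasEnoughRootsOfUnity.exists_primitiveRoot ℚbar (p ^ X.m)
  have : FiniteDimensional ℚ (IntermediateField.adjoin ℚ {ζ}) :=
    IntermediateField.adjoin.finiteDimensional (Algebra.IsIntegral.isIntegral ζ)
  set L := L₁ ⊔ L₂ ⊔ IntermediateField.adjoin ℚ {ζ}
  let Q : GQ → Prop := fun σ => ∃ (a : CuspForm.heckeAlgebra N 2 S) (c : ℕ),
    CycAt (p ^ X.m) σ c ∧
      X.act σ * X.act σ - X.hecke a * X.act σ + (c : Module.End ℤ X.M) = 0 ∧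
      H.π a - LinearMap.trace T H.ρ.V (H.ρ.ρ σ) ∈ IsLocalRing.maximalIdeal T ^ k
  suffices ∀ j, Q (σ ^ j) by simpa [Q] using this 1
  refine Density.forall_of_forall_frobenius L (fun σ => ∀ j, Q (σ ^ j)) ?_ ?_
    (fun σ i h j => by rw [← pow_mul]; exact h _)
    (S ∪ ↑N.primeFactors ∪ {p}) ((hS.union N.primeFactors.finite_toSet).union
      (Set.finite_singleton p)) ?_ σ
  · -- finite level
    intro σ σ' heq hQ j
    obtain ⟨a, c, hc, hq, htr⟩ := hQ j
    have hfix : ∀ x ∈ L, (σ⁻¹ * σ') x = x := fun x hx => by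
      rw [AlgEquiv.mul_apply, ← heq x hx, ← AlgEquiv.mul_apply, inv_mul_cancel, AlgEquiv.one_apply]
    have e : X.act σ' = X.act σ := by
      rw [show σ' = σ * (σ⁻¹ * σ') by group, map_mul,
        hact _ fun x hx => hfix x (le_sup_left (a := L₁ ⊔ L₂) (le_sup_left (a := L₁) hx)), mul_one]
    refine ⟨a, c, fun z hz => ?_, by rw [map_pow, ← e, ← map_pow]; exact hq, ?_⟩
    · have hroot : ∀ w : ℚbar, w ^ p ^ X.m = 1 → σ w = σ' w := by
        intro w hw
        obtain ⟨i, -, rfl⟩ := hζ.eq_pow_of_pow_eq_one hw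
        rw [map_pow, map_pow, heq ζ (le_sup_right (a := L₁ ⊔ L₂)
          (IntermediateField.subset_adjoin ℚ {ζ} (Set.mem_singleton ζ)))]
      have hpow : ∀ (n : ℕ) (w : ℚbar), w ^ p ^ X.m = 1 → (σ ^ n) w = (σ' ^ n) w := by
        intro n
        induction n with
        | zero => intro w _; rfl
        | succ n ih =>
          intro w hw
          rw [pow_succ, pow_succ, AlgEquiv.mul_apply, AlgEquiv.mul_apply, hroot w hw,
            ih _ (by rw [← map_pow, hw, map_one])]
      rw [hpow j z hz, hc _ hz]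
    · have hstab : ∀ i : ℕ, ∀ v, H.ρ.ρ (σ' ^ i) v - H.ρ.ρ (σ ^ i) v ∈
          IsLocalRing.maximalIdeal T ^ k • (⊤ : Submodule T H.ρ.V) := by
        have hcong : ∀ v, H.ρ.ρ σ' v - H.ρ.ρ σ v ∈
            IsLocalRing.maximalIdeal T ^ k • (⊤ : Submodule T H.ρ.V) := by
          intro v
          rw [show σ' = σ * (σ⁻¹ * σ') by group, map_mul, Module.End.mul_apply, ← map_sub]
          have hmem := hρ _ (fun x hx => hfix x (le_sup_left (a := L₁ ⊔ L₂)
            (le_sup_right (a := L₁) hx))) v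
          exact Submodule.smul_induction_on hmem
            (fun r hr w _ => by
              rw [map_smul]; exact Submodule.smul_mem_smul hr Submodule.mem_top)
            (fun u w hu hw => by rw [map_add]; exact Submodule.add_mem _ hu hw)
        intro i
        induction i with
        | zero => intro v; simp
        | succ i ih =>
          intro v
          rw [pow_succ, pow_succ, map_mul, map_mul, Module.End.mul_apply, Module.End.mul_apply]
          rw [← sub_add_sub_cancel _ (H.ρ.ρ (σ ^ i) (H.ρ.ρ σ' v)), ← map_sub]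
          refine Submodule.add_mem _ (ih _) ?_
          exact Submodule.smul_induction_on (hcong v)
            (fun r hr w _ => by
              rw [map_smul]; exact Submodule.smul_mem_smul hr Submodule.mem_top)
            (fun u w hu hw => by rw [map_add]; exact Submodule.add_mem _ hu hw)
      have h5 := trace_mem_of_forall_apply_mem (X := H.ρ.ρ (σ' ^ j) - H.ρ.ρ (σ ^ j)) (hstab j)
      rw [map_sub] at h5
      have := Ideal.add_mem _ htr h5
      rwa [sub_add_sub_cancel] at this
  · -- conjugation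
    intro g σ hQ j
    obtain ⟨a, c, hc, hq, htr⟩ := hQ j
    rw [conj_pow]
    generalize σ ^ j = σ at hc hq htr
    refine ⟨a, c, hc.conj g, ?_, ?_⟩
    · have : X.act g * (X.act σ * X.act σ - X.hecke a * X.act σ + (c : Module.End ℤ X.M)) *
          X.act g⁻¹ = 0 := by rw [hq, mul_zero, zero_mul]
      rw [← this]
      simp only [map_mul, mul_add, mul_sub, add_mul, sub_mul]
      have hgg : X.act g⁻¹ * X.act g = 1 := by rw [← map_mul, inv_mul_cancel, map_one]
      have hgg' : X.act g * X.act g⁻¹ = 1 := by rw [← map_mul, mul_inv_cancel, map_one]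
      congr 2
      · simp only [mul_assoc]; rw [← mul_assoc (X.act g⁻¹) (X.act g), hgg, one_mul]
      · rw [← mul_assoc (X.act g) (X.hecke a), ← (X.comm a g).eq]; simp only [mul_assoc]
      · rw [(Nat.cast_commute c (X.act g)).eq.symm, mul_assoc, hgg', mul_one]
    · rw [map_mul, LinearMap.trace_mul_comm, ← map_mul, ← mul_assoc, inv_mul_cancel,
        one_mul]
      exact htr
  · -- Frobenius
    intro ℓ hℓ hℓS A hA τ hτ
    simp only [Set.mem_union, Finset.mem_coe, Nat.mem_primeFactors, Set.mem_singleton_iff,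
      not_or] at hℓS
    have hℓN : ¬ ℓ ∣ N := fun h => hℓS.1.2 ⟨hℓ, h, NeZero.ne N⟩
    intro j
    set t := CuspForm.heckeAlgebra.T (k := 2) hℓ hℓN hℓS.1.1
    have hcyc : CycAt (p ^ X.m) τ ℓ := fun z hz =>
      Gal.apply_rootOfUnity_of_isFrobeniusAt hτ hℓ hA
        (fun h => hℓS.2 ((Nat.prime_dvd_prime_iff_eq hℓ hp).mp (hℓ.dvd_of_dvd_pow h))) hz
    refine ⟨powTrace t (ℓ : CuspForm.heckeAlgebra N 2 S) j, ℓ ^ j, hcyc.pow j, ?_, ?_⟩
    · have h0 := X.frobQuad ℓ hℓ hℓN hℓS.1.1 hℓS.2 A hA τ hτ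
      have h1 := powTrace_quad X.hecke (fun b => X.comm b τ) (a := t)
        (c := (ℓ : CuspForm.heckeAlgebra N 2 S)) (by rw [map_natCast]; exact h0) j
      rwa [← map_pow X.act, map_pow X.hecke, map_natCast, ← Nat.cast_pow] at h1
    · have hch := H.charpoly_frob ℓ hℓ hℓN hℓS.1.1 A hA τ hτ
      have hq := quad_of_charpoly H.ρ.finrank_eq hch
      rw [map_pow, powTrace_trace H.ρ.finrank_eq H.π (X := H.ρ.ρ τ) (a := t)
        (c := (ℓ : CuspForm.heckeAlgebra N 2 S))
        (by rw [map_natCast]; exact hq.1) hq.2 j, sub_self]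
      exact Ideal.zero_mem _

end Fermat.Agent.HeckeDatum
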