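import Mathlib
import Fermat.Agent.HeckeDatum.Quadratic
import Fermat.Prelude.Def_GaloisRep_LocalConditions

/-!
# Local properties from torsion towers

Local properties of the representation of a Hecke–Galois datum from those of Hecke–Galois torsion
modules: the transfer lemma modulo `m^k`, unramifiedness, unipotent inertia.
-/

noncomputable section

open IsLocalRing

namespace Fermat.Agent.HeckeDatum

local notation "ℚbar" => AlgebraicClosure ℚ
local notation "GQ" => AlgebraicClosure ℚ ≃ₐ[ℚ] AlgebraicClosure ℚ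

/-- Torsion modules with property `P` whose Hecke annihilators are arbitrarily small. -/
def TorsionTower (N : ℕ) [NeZero N] (S : Set ℕ) (p : ℕ) (P : HeckeTorsion N S p → Prop) : Prop :=
  ∀ n : ℕ, ∃ X : HeckeTorsion N S p, P X ∧
    ∀ t : CuspForm.heckeAlgebra N 2 S, X.hecke t = 0 → ∃ u, t = (p ^ n) • u

variable {p N : ℕ} [NeZero N] {S : Set ℕ}
  {𝒪 : Type} [CommRing 𝒪] [IsDomain 𝒪] [IsDiscreteValuationRing 𝒪]
  [IsAdicComplete (maximalIdeal 𝒪) 𝒪]
  {θ : CuspForm.heckeAlgebra N 2 S →+* ResidueField 𝒪}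
  {T : Type} [CommRing T] [IsLocalRing T] [IsNoetherianRing T]
  [IsAdicComplete (maximalIdeal T) T] [Algebra 𝒪 T] [IsLocalHom (algebraMap 𝒪 T)]
  [Module.Finite 𝒪 T] [Module.Free 𝒪 T]

omit [IsAdicComplete (maximalIdeal 𝒪) 𝒪] [IsNoetherianRing T] [IsAdicComplete (maximalIdeal T) T]
  [Module.Finite 𝒪 T] [Module.Free 𝒪 T] [IsDomain 𝒪] [IsDiscreteValuationRing 𝒪] in
theorem natCast_mem_maximalIdeal [IsLocalRing 𝒪] (hp𝒪 : (p : 𝒪) ∈ maximalIdeal 𝒪) :
    (p : T) ∈ maximalIdeal T := by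
  rw [← map_natCast (algebraMap 𝒪 T), mem_maximalIdeal]
  exact map_nonunit (algebraMap 𝒪 T) (p : 𝒪) hp𝒪

/-- The transfer data attached to a torsion module whose Hecke annihilator maps into `m^k`. -/
theorem exists_transferData (hp : p.Prime) (hS : S.Finite)
    (H : CuspForm.HeckeGaloisRepDatum N S 𝒪 θ T) (X : HeckeTorsion N S p) (k : ℕ)
    (hker : ∀ t, X.hecke t = 0 → H.π t ∈ maximalIdeal T ^ k) :
    ∃ (a : GQ → CuspForm.heckeAlgebra N 2 S) (c : GQ → ℕ),
      (∀ σ, CycAt (p ^ X.m) σ (c σ)) ∧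
        TransferData X.act X.hecke H.π H.ρ.ρ (maximalIdeal T ^ k) a (fun σ => (c σ : _)) := by
  choose a c hc hq htr using exists_quad hp hS H X k
  have : NeZero (p ^ X.m) := ⟨pow_ne_zero _ hp.ne_zero⟩
  refine ⟨a, c, hc, ⟨X.comm, fun g => by rw [map_natCast]; exact hq g, fun g g' => ?_, htr, hker⟩⟩
  rw [map_natCast, map_natCast, map_natCast, ← Nat.cast_mul]
  exact X.natCast_eq_of_modEq ((hc _).modEq ((hc g).mul (hc g')))

/-- **Transfer to the datum.** A relation between Galois elements with Hecke coefficients that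
kills the torsion module holds for `H.ρ` modulo `m^k`. -/
theorem sum_smul_apply_mem (hp : p.Prime) (hS : S.Finite)
    (H : CuspForm.HeckeGaloisRepDatum N S 𝒪 θ T) (X : HeckeTorsion N S p) (k : ℕ)
    (hker : ∀ t, X.hecke t = 0 → H.π t ∈ maximalIdeal T ^ k)
    {ι : Type*} (s : Finset ι) (b : ι → CuspForm.heckeAlgebra N 2 S) (σ : ι → GQ)
    (hx : ∑ i ∈ s, X.hecke (b i) * X.act (σ i) = 0) (v : H.ρ.V) :
    (∑ i ∈ s, H.π (b i) • H.ρ.ρ (σ i)) v ∈ maximalIdeal T ^ k • (⊤ : Submodule T H.ρ.V) := by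
  obtain ⟨a, c, -, d⟩ := exists_transferData hp hS H X k hker
  exact d.sum_smul_mem (Density.adic_span_range_eq_top H.ρ H.residual_absIrr) H.ρ.finrank_eq hx v

omit [IsAdicComplete (maximalIdeal T) T] in
theorem eq_zero_of_forall_mem_pow {V : Type*} [AddCommGroup V] [Module T V] [Module.Finite T V]
    {x : V} (h : ∀ k : ℕ, x ∈ maximalIdeal T ^ k • (⊤ : Submodule T V)) : x = 0 := by
  have := (Submodule.mem_iInf _).mpr h
  rwa [Ideal.iInf_pow_smul_eq_bot_of_isLocalRing (I := maximalIdeal T)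
    (maximalIdeal.isMaximal T).ne_top, Submodule.mem_bot] at this

theorem π_mem_of_tower (hp𝒪 : (p : 𝒪) ∈ maximalIdeal 𝒪)
    (H : CuspForm.HeckeGaloisRepDatum N S 𝒪 θ T) {P : HeckeTorsion N S p → Prop}
    (h : TorsionTower N S p P) (k : ℕ) :
    ∃ X : HeckeTorsion N S p, P X ∧ ∀ t, X.hecke t = 0 → H.π t ∈ maximalIdeal T ^ k := by
  obtain ⟨X, hX, hker⟩ := h k
  refine ⟨X, hX, fun t ht => ?_⟩
  obtain ⟨u, rfl⟩ := hker t ht
  rw [nsmul_eq_mul, map_mul, map_natCast, Nat.cast_pow]
  exact Ideal.mul_mem_right _ _ (Ideal.pow_mem_pow (natCast_mem_maximalIdeal hp𝒪) k)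

/-- Inertia trivial on the torsion modules gives an unramified representation. -/
theorem isUnramifiedAt_of_tower (hp : p.Prime) (hS : S.Finite)
    (hp𝒪 : (p : 𝒪) ∈ maximalIdeal 𝒪) (H : CuspForm.HeckeGaloisRepDatum N S 𝒪 θ T) (q : ℕ)
    (h : TorsionTower N S p fun X => ∀ P : ValuationSubring ℚbar, P.LiesOverPrime q →
      ∀ τ ∈ P.inertiaSubgroupIn ℚ, X.act τ = 1) :
    H.ρ.IsUnramifiedAt q := by
  intro P hP τ hτ
  refine LinearMap.ext fun v => sub_eq_zero.mp
    (eq_zero_of_forall_mem_pow (T := T) (V := H.ρ.V) fun k => ?_)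
  obtain ⟨X, hX, hker⟩ := π_mem_of_tower hp𝒪 H h k
  have := sum_smul_apply_mem hp hS H X k hker (Finset.univ : Finset Bool)
    (fun i => if i then 1 else -1) (fun i => if i then τ else 1)
    (by simp [hX P hP τ hτ]) v
  simpa [sub_eq_add_neg] using this

/-- Inertia at `q` fixes roots of unity of order prime to `q`. -/
theorem apply_rootOfUnity_of_mem_inertia {P : ValuationSubring ℚbar} {q n : ℕ} (hq : q.Prime)
    (hP : P.LiesOverPrime q) (hn : ¬ q ∣ n) {τ : GQ} (hτ : τ ∈ P.inertiaSubgroupIn ℚ) :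
    CycAt n τ 1 := by
  intro ζ hζ
  obtain ⟨F, hF⟩ := Gal.exists_isFrobeniusAt hq hP
  have h1 := Gal.apply_rootOfUnity_of_isFrobeniusAt hF hq hP hn hζ
  have h2 := Gal.apply_rootOfUnity_of_isFrobeniusAt (Gal.isFrobeniusAt_mul_inertia hF hτ)
    hq hP hn hζ
  rw [AlgEquiv.mul_apply, ← h1] at h2
  rw [F.injective h2, pow_one]

/-- Unipotent inertia of echelon two on the torsion modules gives unipotent inertia. -/
theorem isUnipotentOnInertiaAt_of_tower (hp : p.Prime) (hS : S.Finite)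
    (hp𝒪 : (p : 𝒪) ∈ maximalIdeal 𝒪) (H : CuspForm.HeckeGaloisRepDatum N S 𝒪 θ T) (q : ℕ)
    (hq : q.Prime) (hqp : q ≠ p)
    (h : TorsionTower N S p fun X => ∀ P : ValuationSubring ℚbar, P.LiesOverPrime q →
      ∀ τ ∈ P.inertiaSubgroupIn ℚ, (X.act τ - 1) * (X.act τ - 1) = 0) :
    H.ρ.IsUnipotentOnInertiaAt q := by
  intro P hP τ hτ
  set R := H.ρ.ρ τ
  have hbase : (R * R - R - R + 1 = 0) ∧ LinearMap.trace T H.ρ.V R = 2 := by
    have hk : ∀ k : ℕ, (∀ v, (R * R - R - R + 1) v ∈ maximalIdeal T ^ k • (⊤ : Submodule T H.ρ.V)) ∧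
        (2 : T) - LinearMap.trace T H.ρ.V R ∈ maximalIdeal T ^ k := by
      intro k
      obtain ⟨X, hX, hker⟩ := π_mem_of_tower hp𝒪 H h k
      have hsq := hX P hP τ hτ
      refine ⟨fun v => ?_, ?_⟩
      · have := sum_smul_apply_mem hp hS H X k hker (Finset.univ : Finset (Fin 4))
          ![1, -1, -1, 1] ![τ * τ, τ, τ, 1] (by
            simp only [Fin.sum_univ_four, Matrix.cons_val, map_one, map_neg, one_mul, neg_mul,
              map_mul]
            rw [← hsq]; noncomm_ring) v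
        simp only [Fin.sum_univ_four, Matrix.cons_val, map_one, map_neg, one_smul, neg_smul,
          map_mul, ← sub_eq_add_neg] at this
        exact this
      · obtain ⟨a, c, hc, d⟩ := exists_transferData hp hS H X k hker
        have : NeZero (p ^ X.m) := ⟨pow_ne_zero _ hp.ne_zero⟩
        have hqn : ¬ q ∣ p ^ X.m := fun hd =>
          hqp ((Nat.prime_dvd_prime_iff_eq hq hp).mp (hq.dvd_of_dvd_pow hd))
        have hc1 : (X.hecke (c τ : CuspForm.heckeAlgebra N 2 S)) = 1 := by
          rw [map_natCast, X.natCast_eq_of_modEq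
            ((hc τ).modEq (apply_rootOfUnity_of_mem_inertia hq hP hqn hτ)), Nat.cast_one]
        have hquad := d.quad τ
        rw [hc1] at hquad
        have he : X.hecke (2 - a τ) * X.act τ = 0 := by
          rw [map_sub, map_ofNat, sub_mul]
          calc (2 : Module.End ℤ X.M) * X.act τ - X.hecke (a τ) * X.act τ
              = (X.act τ * X.act τ - X.hecke (a τ) * X.act τ + 1) -
                  (X.act τ - 1) * (X.act τ - 1) := by noncomm_ring
            _ = 0 := by rw [hquad, hsq, sub_zero]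
        have he' : X.hecke (2 - a τ) = 0 := by
          calc X.hecke (2 - a τ) = X.hecke (2 - a τ) * X.act (τ * τ⁻¹) := by
                rw [mul_inv_cancel, map_one, mul_one]
            _ = 0 := by rw [map_mul, ← mul_assoc, he, zero_mul]
        have h2 := hker _ he'
        rw [map_sub, map_ofNat] at h2
        have := Ideal.add_mem _ h2 (d.tr τ)
        rwa [sub_add_sub_cancel] at this
    refine ⟨LinearMap.ext fun v =>
      eq_zero_of_forall_mem_pow (T := T) (V := H.ρ.V) fun k => (hk k).1 v, ?_⟩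
    refine (sub_eq_zero.mp (eq_zero_of_forall_mem_pow (T := T) (V := T) fun k => ?_)).symm
    rw [smul_eq_mul, Ideal.mul_top]
    exact (hk k).2
  let b := Module.finBasisOfFinrankEq T H.ρ.V H.ρ.finrank_eq
  have hcp : LinearMap.charpoly R = Polynomial.X ^ 2 - Polynomial.C (2 : T) * Polynomial.X +
      Polynomial.C (LinearMap.det R) := by
    rw [← LinearMap.charpoly_toMatrix R b, Matrix.charpoly_fin_two,
      ← LinearMap.trace_eq_matrix_trace, hbase.2, LinearMap.det_toMatrix]
  have hdet : LinearMap.det R = 1 := by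
    have h1 := (quad_of_charpoly H.ρ.finrank_eq hcp).1
    have h2 : (LinearMap.det R - 1) • (1 : Module.End T H.ρ.V) = 0 := by
      rw [sub_smul, one_smul]
      calc LinearMap.det R • (1 : Module.End T H.ρ.V) - 1
          = (R * R - (2 : T) • R + LinearMap.det R • 1) - (R * R - R - R + 1) := by
            rw [two_smul]; abel
        _ = 0 := by rw [h1, hbase.1, sub_zero]
    have h3 := congrArg (fun f : Module.End T H.ρ.V => b.repr (f (b 0)) 0) h2
    simpa [sub_eq_zero] using h3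
  rw [hcp, hdet]
  simp only [map_ofNat, map_one]
  ring

end Fermat.Agent.HeckeDatum
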