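import Mathlib
import Fermat.Agent.GalRep.Datum
import Fermat.Agent.HeckeDatum.Local

/-!
# Torsion towers from a Hecke torsion datum

The Galois action on `J₀(N)[p^∞]` in integral coordinates gives torsion towers away from any `S`.
-/

noncomputable section

namespace Fermat.Agent.HeckeDatum

open CuspForm

local notation "ℚbar" => AlgebraicClosure ℚ
local notation "GQ" => AlgebraicClosure ℚ ≃ₐ[ℚ] AlgebraicClosure ℚ

/-- A subring of integral matrices isomorphic to `B` is saturated up to a bounded power of `p`. -/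
theorem exists_pow_saturation {B : Type*} [Ring B] {d : ℕ}
    (g : B →+* Matrix (Fin d) (Fin d) ℤ) (hg : Function.Injective g) (p n : ℕ) :
    ∃ m, ∀ b, (g b).map (Int.cast : ℤ → ZMod (p ^ m)) = 0 → ∃ u, b = (p ^ n) • u := by
  obtain ⟨k, hk⟩ := Ideal.exists_pow_inf_eq_pow_smul (Ideal.span {(p : ℤ)})
    (LinearMap.range g.toAddMonoidHom.toIntLinearMap)
  refine ⟨n + k, fun b hb => ?_⟩
  have hmem : g b ∈ Ideal.span {(p : ℤ)} ^ (n + k) • (⊤ : Submodule ℤ (Matrix (Fin d) (Fin d) ℤ))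
      ⊓ LinearMap.range g.toAddMonoidHom.toIntLinearMap := by
    refine ⟨?_, ⟨b, rfl⟩⟩
    rw [Ideal.span_singleton_pow, SetLike.mem_coe, Submodule.ideal_span_singleton_smul,
      Submodule.mem_smul_pointwise_iff_exists]
    refine ⟨Matrix.of fun i j => g b i j / (p : ℤ) ^ (n + k), Submodule.mem_top, ?_⟩
    ext i j
    have hij := congrFun (congrFun hb i) j
    rw [Matrix.map_apply, Matrix.zero_apply, ZMod.intCast_zmod_eq_zero_iff_dvd, Nat.cast_pow]
      at hij
    rw [Matrix.smul_apply, Matrix.of_apply, smul_eq_mul]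
    exact Int.mul_ediv_cancel' hij
  rw [hk (n + k) (Nat.le_add_left k n), Nat.add_sub_cancel] at hmem
  have hmem' := Submodule.smul_mono (le_refl (Ideal.span {(p : ℤ)} ^ n)) inf_le_right hmem
  rw [Ideal.span_singleton_pow, Submodule.ideal_span_singleton_smul,
    Submodule.mem_smul_pointwise_iff_exists] at hmem'
  obtain ⟨_, ⟨u, rfl⟩, hu⟩ := hmem'
  refine ⟨u, hg ?_⟩
  rw [map_nsmul, ← hu, AddMonoidHom.coe_toIntLinearMap, RingHom.toAddMonoidHom_eq_coe,
    AddMonoidHom.coe_coe, ← Nat.cast_pow, Nat.cast_smul_eq_nsmul]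

/-- An integer matrix acting on `(ℤ/k)^d`. -/
def matrixAct (d k : ℕ) : Matrix (Fin d) (Fin d) (ZMod k) →+* Module.End ℤ (Fin d → ZMod k) where
  toFun M := M.mulVecLin.restrictScalars ℤ
  map_one' := by ext v; simp
  map_mul' _ _ := by ext v; simp
  map_zero' := by ext v; simp
  map_add' _ _ := by ext v; simp

theorem matrixAct_injective (d k : ℕ) : Function.Injective (matrixAct d k) := fun _ _ h =>
  Matrix.ext_of_mulVec_single fun i => LinearMap.congr_fun h (Pi.single i 1)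

variable {N : ℕ} [NeZero N] {p : ℕ}

/-- The Hecke action of a datum modulo `p^m`. -/
def heckeMod (D : GalRep.HeckeTorsionDatum N p) (S : Set ℕ) (m : ℕ) :
    heckeAlgebra N 2 S →+* Matrix (Fin D.d) (Fin D.d) (ZMod (p ^ m)) :=
  ((Int.castRingHom (ZMod (p ^ m))).mapMatrix.comp D.hecke).comp
    (Subalgebra.inclusion (heckeAlgebra_mono (Set.empty_subset S))).toRingHom

theorem commute_heckeMod (D : GalRep.HeckeTorsionDatum N p) (S : Set ℕ) (m : ℕ)
    (t : heckeAlgebra N 2 S) (σ : GQ) : Commute (heckeMod D S m t) (D.ρ m σ) := by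
  obtain ⟨t, ht⟩ := t
  induction ht using Algebra.adjoin_induction with
  | mem x hx =>
    have key : ∀ q, Commute (((D.hecke (GalRep.heckeOp N q))).map (Int.cast : ℤ → ZMod (p ^ m)))
        (D.ρ m σ) := fun q => by rw [D.hecke_heckeOp]; exact (D.commute m σ q).symm
    rcases hx with ⟨ℓ, hℓ, hℓN, hℓS, rfl⟩ | ⟨q, hqN, hq, hqS, rfl⟩
    · have := key ⟨ℓ, hℓ⟩
      rw [GalRep.heckeOp, dif_neg hℓN] at this
      exact this
    · have := key ⟨q, hq⟩
      rw [GalRep.heckeOp, dif_pos hqN] at this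
      exact this
  | algebraMap r =>
    have h1 : heckeMod D S m ⟨algebraMap ℤ _ r, Subalgebra.algebraMap_mem _ r⟩ = (r : _) :=
      (congrArg (heckeMod D S m) (eq_intCast (algebraMap ℤ (heckeAlgebra N 2 S)) r)).trans
        (map_intCast (heckeMod D S m) r)
    rw [h1]
    exact Int.cast_commute r _
  | add x y hx hy ihx ihy =>
    exact (map_add (heckeMod D S m) ⟨x, hx⟩ ⟨y, hy⟩).symm ▸ ihx.add_left ihy
  | mul x y hx hy ihx ihy =>
    exact (map_mul (heckeMod D S m) ⟨x, hx⟩ ⟨y, hy⟩).symm ▸ ihx.mul_left ihy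

/-- The torsion module of level `p^m` of a datum. -/
def ofDatum (hp : p.Prime) (D : GalRep.HeckeTorsionDatum N p) (S : Set ℕ) (m : ℕ) :
    HeckeTorsion N S p where
  M := Fin D.d → ZMod (p ^ m)
  m := m
  torsion x := by
    ext i
    simp
  act := (matrixAct D.d (p ^ m)).toMonoidHom.comp (D.ρ m)
  finiteLevel := by
    obtain ⟨L, hL, h⟩ := D.finiteLevel m
    exact ⟨L, hL, fun σ hσ => by simp [h σ hσ]⟩
  hecke := (matrixAct D.d (p ^ m)).comp (heckeMod D S m)
  comm t σ := (commute_heckeMod D S m t σ).map (matrixAct D.d (p ^ m))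
  frobQuad ℓ hℓ hℓN hℓS hℓp A hA σ hσ := by
    have hndvd : ¬ ℓ ∣ N * p := fun hd => (hℓ.dvd_mul.mp hd).elim hℓN fun h =>
      hℓp ((Nat.prime_dvd_prime_iff_eq hℓ hp).mp h)
    have hT : heckeMod D S m (heckeAlgebra.T hℓ hℓN hℓS) =
        (D.t ⟨ℓ, hℓ⟩).map (Int.cast : ℤ → ZMod (p ^ m)) := by
      rw [← D.hecke_heckeOp, GalRep.heckeOp, dif_neg hℓN]
      rfl
    have hq := congrArg (matrixAct D.d (p ^ m)) (D.quadratic m ℓ hℓ hndvd A hA σ hσ)
    simpa [hT] using hq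

theorem ofDatum_ker (hp : p.Prime) (D : GalRep.HeckeTorsionDatum N p) (S : Set ℕ) (n : ℕ) :
    ∃ m, ∀ t, (ofDatum hp D S m).hecke t = 0 → ∃ u, t = (p ^ n) • u := by
  let g : heckeAlgebra N 2 S →+* Matrix (Fin D.d) (Fin D.d) ℤ :=
    D.hecke.comp (Subalgebra.inclusion (heckeAlgebra_mono (Set.empty_subset S))).toRingHom
  obtain ⟨m, hm⟩ := exists_pow_saturation g
    (D.hecke_injective.comp (Subalgebra.inclusion_injective _)) p n
  refine ⟨m, fun t ht => hm t ?_⟩
  exact matrixAct_injective _ _ (ht.trans (map_zero _).symm)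

/-- A datum gives a torsion tower with trivial inertia at every `q ∤ N p`. -/
theorem torsionTower_unramified (hp : p.Prime) (D : GalRep.HeckeTorsionDatum N p) (S : Set ℕ)
    (q : ℕ)
    (hq : q.Prime) (hqNp : ¬ q ∣ N * p) :
    TorsionTower N S p fun X => ∀ P : ValuationSubring ℚbar, P.LiesOverPrime q →
      ∀ τ ∈ P.inertiaSubgroupIn ℚ, X.act τ = 1 := by
  intro n
  obtain ⟨m, hm⟩ := ofDatum_ker hp D S n
  refine ⟨ofDatum hp D S m, fun P hP τ hτ => ?_, hm⟩
  show matrixAct D.d (p ^ m) (D.ρ m τ) = 1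
  rw [D.unramified m q hq hqNp P hP τ hτ, map_one]

variable {S : Finset ℕ} {𝒪 : Type} [CommRing 𝒪] [IsDomain 𝒪] [IsDiscreteValuationRing 𝒪]
  [IsAdicComplete (IsLocalRing.maximalIdeal 𝒪) 𝒪]
  {θ : CuspForm.heckeAlgebra N 2 (↑S : Set ℕ) →+* IsLocalRing.ResidueField 𝒪}
  {T : Type} [CommRing T] [IsLocalRing T] [IsNoetherianRing T]
  [IsAdicComplete (IsLocalRing.maximalIdeal T) T] [Algebra 𝒪 T] [IsLocalHom (algebraMap 𝒪 T)]
  [Module.Finite 𝒪 T] [Module.Free 𝒪 T]

/-- S31, from the Galois action on the `p`-power torsion of `J₀(N)`. -/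
theorem isUnramifiedAt_of_datum (hp : p.Prime)
    (hp𝒪 : (p : 𝒪) ∈ IsLocalRing.maximalIdeal 𝒪) (hpS : p ∈ S)
    (hNS : ∀ q : ℕ, q.Prime → q ∣ N → q ∈ S) (D : GalRep.HeckeTorsionDatum N p)
    (H : CuspForm.HeckeGaloisRepDatum N (↑S : Set ℕ) 𝒪 θ T)
    (q : ℕ) (hq : q.Prime) (hqS : q ∉ S) : H.ρ.IsUnramifiedAt q :=
  isUnramifiedAt_of_tower hp S.finite_toSet hp𝒪 H q (torsionTower_unramified hp D _ q hq fun hd =>
    (hq.dvd_mul.mp hd).elim (fun h => hqS (hNS q hq h))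
      fun h => hqS ((Nat.prime_dvd_prime_iff_eq hq hp).mp h ▸ hpS))

end Fermat.Agent.HeckeDatum
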