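import Fermat.Agent.GalRep.DatumJZero
import Fermat.Agent.HeckeDatum.FromDatum

/-!
# Unramifiedness of the representation of a Hecke–Galois datum

`isUnramifiedAt_of_torsionReduction`: the input of S31 from the reduction
properties of the `p`-power torsion of `J₀(N)`.
-/

namespace Fermat.Agent.HeckeDatum

variable {p : ℕ} {N : ℕ} [NeZero N] {S : Finset ℕ}
  {𝒪 : Type} [CommRing 𝒪] [IsDomain 𝒪] [IsDiscreteValuationRing 𝒪]
  [IsAdicComplete (IsLocalRing.maximalIdeal 𝒪) 𝒪]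
  {θ : CuspForm.heckeAlgebra N 2 (↑S : Set ℕ) →+* IsLocalRing.ResidueField 𝒪}
  {T : Type} [CommRing T] [IsLocalRing T] [IsNoetherianRing T]
  [IsAdicComplete (IsLocalRing.maximalIdeal T) T] [Algebra 𝒪 T] [IsLocalHom (algebraMap 𝒪 T)]
  [Module.Finite 𝒪 T] [Module.Free 𝒪 T]

/-- The representation of a Hecke–Galois datum is unramified outside `S`. -/
theorem isUnramifiedAt_of_torsionReduction (hp : p.Prime)
    (hp𝒪 : (p : 𝒪) ∈ IsLocalRing.maximalIdeal 𝒪) (hpS : p ∈ S)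
    (hNS : ∀ q : ℕ, q.Prime → q ∣ N → q ∈ S) (h : GalRep.TorsionReduction N p)
    (H : CuspForm.HeckeGaloisRepDatum N (↑S : Set ℕ) 𝒪 θ T)
    (q : ℕ) (hq : q.Prime) (hqS : q ∉ S) : H.ρ.IsUnramifiedAt q :=
  haveI : NeZero p := ⟨hp.ne_zero⟩
  isUnramifiedAt_of_datum hp hp𝒪 hpS hNS (GalRep.jZeroDatum N p h) H q hq hqS

end Fermat.Agent.HeckeDatum
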